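/-
M59 (helper20, generator): EVEN-LEVEL twin of TW/Easy/Asm/ToricAdapter.lean (helper1): adapters for the cells
(Z7)/(Z8) at `2 ∣ M`, exponent `m` prime to `2`.  Prefix `m59ad_`.
-/
import Mathlib
import Fermat.Agent.TW.Easy.GeoSeam
import Fermat.Agent.TW.Easy.Asm.ToricAdapter
import Fermat.Agent.M59.DTwin.Res.Main

set_option autoImplicit false
set_option linter.unusedSectionVars false
set_option linter.unusedVariables false
set_option linter.style.haveILetI false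
set_option synthInstance.maxHeartbeats 400000
set_option maxHeartbeats 1000000

noncomputable section

namespace Fermat.Agent.M59

open Fermat.Agent.TW

open ModularCurve AlgebraicCurve IsLocalRing Fermat.Agent.JT3 Fermat.Agent.S35 Fermat.Agent.SS
  Fermat.Agent.S24 Fermat.Agent.S44 Fermat.Agent.S43

local notation "Qb" => AlgebraicClosure ℚ
local notation "GQ" => (AlgebraicClosure ℚ ≃ₐ[ℚ] AlgebraicClosure ℚ)

variable (A : ValuationSubring Qb) {q : ℕ} [hq : Fact q.Prime] (hA : A.LiesOverPrime q)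
  (M : ℕ) [NeZero M] [NeZero q] [NeZero (M * q)] (hqM : ¬ q ∣ M) (hq2 : q ≠ 2)
  {m : ℕ} (hm0 : m ≠ 0) (hM2 : 2 ∣ M) (hm2 : Nat.Coprime m 2)

include hA hq2 hm0 hM2 hm2

/-- `W_q z = ± z`, `ν z = 0`, `δ z = 0` ⟹ `ν (W_q z) = 0` and `δ (W_q z) = 0`. -/
theorem m59ad_nu_delta_W {z : JZero (M * q)} (hz : m • z = 0)
    (hW : s44w_WJ M q hq.out hqM z = z ∨ s44w_WJ M q hq.out hqM z = -z)
    (hν : twfr_nu A M q hq.out hqM m z = 0) (hδ : twfr_delta A M q m z = 0) :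
    twfr_nu A M q hq.out hqM m (s44w_WJ M q hq.out hqM z) = 0 ∧
      twfr_delta A M q m (s44w_WJ M q hq.out hqM z) = 0 := by
  have hνn : twfr_nu A M q hq.out hqM m (-z) = 0 := by
    rw [twf_add_neg (twf_torsSub M q m) (twfr_nu A M q hq.out hqM m)
      (fun z hz z' hz' => twfr_nu_add A hA M hqM hm0 hz hz') z hz, hν, neg_zero]
  have hδn : twfr_delta A M q m (-z) = 0 := by
    rw [twf_add_neg (twf_kerNu M q hqM A hA hm0) (twfr_delta A M q m)
      (fun z hz z' hz' => m59res_delta_add_of_nu A hA M hqM hq2 hm0 hM2 hm2 hz.1 hz'.1 hz.2 hz'.2)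
      z ⟨hz, hν⟩, hδ, neg_zero]
  rcases hW with h | h <;> rw [h]
  · exact ⟨hν, hδ⟩
  · exact ⟨hνn, hδn⟩

/-- **(Z7) adapter**: the separate-hypotheses form (helper20's `twft_ToricAt A φ M hqM m`, for every
Frobenius `φ`) gives GeoSeam's cell `twf_Toric_stmt A M hqM m`. -/
theorem m59ad_toric_of_sep
    (hT : ∀ φ : GQ, A.IsFrobeniusAt φ q → ∀ z : JZero (M * q), m • z = 0 →
      (∀ s ∈ A.inertiaSubgroupIn ℚ, s • z = z) →
      twfr_nu A M q hq.out hqM m z = 0 →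
      twfr_nu A M q hq.out hqM m (s44w_WJ M q hq.out hqM z) = 0 →
      twfr_delta A M q m z = 0 → twfr_delta A M q m (s44w_WJ M q hq.out hqM z) = 0 →
      φ • (φ • z) = (q ^ 2) • z) :
    twf_Toric_stmt A M hqM m := by
  intro φ hφ z hz hfix hW hν hδ
  obtain ⟨hνW, hδW⟩ := m59ad_nu_delta_W A hA M hqM hq2 hm0 hM2 hm2 hz hW hν hδ
  rw [hT φ hφ z hz hfix hν hνW hδ hδW]
  norm_cast

/-- **(Z8) adapter, sign `-1`**: the separate-hypotheses form `φ z + q W_q z = 0` gives GeoSeam's cell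
`twf_ToricW_stmt A M hqM m (-1)`. -/
theorem m59ad_toricW_of_sep
    (hT : ∀ φ : GQ, A.IsFrobeniusAt φ q → ∀ z : JZero (M * q), m • z = 0 →
      (∀ s ∈ A.inertiaSubgroupIn ℚ, s • z = z) →
      twfr_nu A M q hq.out hqM m z = 0 →
      twfr_nu A M q hq.out hqM m (s44w_WJ M q hq.out hqM z) = 0 →
      twfr_delta A M q m z = 0 → twfr_delta A M q m (s44w_WJ M q hq.out hqM z) = 0 →
      φ • z + q • s44w_WJ M q hq.out hqM z = 0) :
    twf_ToricW_stmt A M hqM m (-1) := by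
  intro φ hφ z hz hfix hW hν hδ
  obtain ⟨hνW, hδW⟩ := m59ad_nu_delta_W A hA M hqM hq2 hm0 hM2 hm2 hz hW hν hδ
  have h := hT φ hφ z hz hfix hν hνW hδ hδW
  rw [eq_neg_of_add_eq_zero_left h, neg_one_mul, neg_smul, natCast_zsmul]

/-- **(Z8) adapter, sign `+1`**: the separate-hypotheses form `φ z = q W_q z` gives GeoSeam's cell
`twf_ToricW_stmt A M hqM m 1`. -/
theorem m59ad_toricW_of_sep'
    (hT : ∀ φ : GQ, A.IsFrobeniusAt φ q → ∀ z : JZero (M * q), m • z = 0 →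
      (∀ s ∈ A.inertiaSubgroupIn ℚ, s • z = z) →
      twfr_nu A M q hq.out hqM m z = 0 →
      twfr_nu A M q hq.out hqM m (s44w_WJ M q hq.out hqM z) = 0 →
      twfr_delta A M q m z = 0 → twfr_delta A M q m (s44w_WJ M q hq.out hqM z) = 0 →
      φ • z = q • s44w_WJ M q hq.out hqM z) :
    twf_ToricW_stmt A M hqM m 1 := by
  intro φ hφ z hz hfix hW hν hδ
  obtain ⟨hνW, hδW⟩ := m59ad_nu_delta_W A hA M hqM hq2 hm0 hM2 hm2 hz hW hν hδ
  rw [hT φ hφ z hz hfix hν hνW hδ hδW, one_mul, natCast_zsmul]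

end Fermat.Agent.M59
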