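/-
M59 (helper20, generator): EVEN-LEVEL twin of TW/Easy/Asm/ToricWAdapter.lean (helper1).  Prefix `m59ad_`.
-/
import Mathlib
import Fermat.Agent.TW.Easy.Asm.ToricWAdapter
import Fermat.Agent.M59.DTwin.Asm.ToricAdapter

set_option autoImplicit false
set_option linter.unusedSectionVars false
set_option linter.unusedVariables false
set_option linter.style.haveILetI false
set_option synthInstance.maxHeartbeats 400000
set_option maxHeartbeats 1000000

noncomputable section

namespace Fermat.Agent.M59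

open Fermat.Agent.TW

open ModularCurve AlgebraicCurve IsLocalRing Fermat.Agent.JT3 Fermat.Agent.S35 Fermat.Agent.SS
  Fermat.Agent.S24 Fermat.Agent.S44 Fermat.Agent.S43

local notation "Qb" => AlgebraicClosure ℚ
local notation "GQ" => (AlgebraicClosure ℚ ≃ₐ[ℚ] AlgebraicClosure ℚ)

variable (A : ValuationSubring Qb) {q : ℕ} [hq : Fact q.Prime] (hA : A.LiesOverPrime q)
  (M : ℕ) [NeZero M] [NeZero q] [NeZero (M * q)] (hqM : ¬ q ∣ M) (hq2 : q ≠ 2)
  {m : ℕ} (hm0 : m ≠ 0) (hM2 : 2 ∣ M) (hm2 : Nat.Coprime m 2)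

include hA hq2 hm0 hM2 hm2

/-- **(Z8) adapter, `class_of_ff` shape**: the separate-hypotheses form `W_q (φ z) + q z = 0` gives
GeoSeam's cell `twf_ToricW_stmt A M hqM m (-1)`. -/
theorem m59ad_toricW_of_sep_comm
    (hT : ∀ φ : GQ, A.IsFrobeniusAt φ q → ∀ z : JZero (M * q), m • z = 0 →
      (∀ s ∈ A.inertiaSubgroupIn ℚ, s • z = z) →
      twfr_nu A M q hq.out hqM m z = 0 →
      twfr_nu A M q hq.out hqM m (s44w_WJ M q hq.out hqM z) = 0 →
      twfr_delta A M q m z = 0 → twfr_delta A M q m (s44w_WJ M q hq.out hqM z) = 0 →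
      s44w_WJ M q hq.out hqM (φ • z) + q • z = 0) :
    twf_ToricW_stmt A M hqM m (-1) :=
  m59ad_toricW_of_sep A hA M hqM hq2 hm0 hM2 hm2 (fun φ hφ z hz hfix h1 h2 h3 h4 =>
    twf_w_swap M q hq.out hqM hm0 φ z hz q (hT φ hφ z hz hfix h1 h2 h3 h4))

end Fermat.Agent.M59
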